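/-
CELL-S / [ALG] TRANSFER (helper79): the per-level connected package of `GS/Old/OrdLevels`
(`(D)` stability, `(I)` increments of inertia, `(CE)` no inertia-trivial subquotient) passes from a
module `M` to every equivariant subquotient of a finite power of `M` (`GH/S32/IsSubquot`).

Abstract: `G` a group, `D I : Set G` ("decomposition" and "inertia"), `act : G → M → M`.

* `ConnPackage I D act W` : the three properties of a subgroup `W ≤ M`.
* `ConnPackage.ce_pow`    : `(CE)` for `W ^ r ≤ M ^ r` (induction on `r`).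
* `ConnPackage.of_isSubquotPow` : the package for `M'` from the package for `M` and
  `IsSubquotPow act act'`; `W' := f (X₁ ∩ W ^ r)`.

Mathlib only (+ the definition `IsSubquotPow`).
-/
import Mathlib
import Fermat.Agent.GH.S32.IsSubquot

set_option autoImplicit false

namespace Fermat.Agent.GS.Alg.Transfer

open Fermat.Agent.GH.S32

variable {G : Type*} {M M' : Type*} [AddCommGroup M] [AddCommGroup M']

/-- The connected package of a subgroup `W ≤ M` for the "decomposition set" `D` and the "inertia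
set" `I`: `W` is `D`-stable, contains the increments `σ u - u` (`σ ∈ I`), and has no `I`-trivial
subquotient, in the form (CE) of `GS/Old/OrdLevels`. -/
structure ConnPackage (I D : Set G) (act : G → M → M) (W : AddSubgroup M) : Prop where
  stab : ∀ σ ∈ D, ∀ w, act σ w ∈ W ↔ w ∈ W
  incr : ∀ σ ∈ I, ∀ u, act σ u - u ∈ W
  ce : ∀ N : AddSubgroup M, (∀ σ ∈ I, ∀ u ∈ N, act σ u ∈ N) →
    ∀ w ∈ W, (∀ σ ∈ I, act σ w - w ∈ N) → w ∈ N

section Additive

variable {act : G → M → M} (hadd : ∀ σ x y, act σ (x + y) = act σ x + act σ y)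

include hadd

theorem act_zero (σ : G) : act σ 0 = 0 := by
  have h := hadd σ 0 0
  rw [add_zero] at h
  exact left_eq_add.1 h

theorem act_sub (σ : G) (x y : M) : act σ (x - y) = act σ x - act σ y := by
  have h := hadd σ (x - y) y
  rw [sub_add_cancel] at h
  rw [h, add_sub_cancel_right]

end Additive

/-- append a zero last coordinate. -/
def snocZero (r : ℕ) : (Fin r → M) →+ (Fin (r + 1) → M) where
  toFun u := Fin.snoc (α := fun _ => M) u 0
  map_zero' := by
    funext i
    refine Fin.lastCases ?_ (fun j => ?_) i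
    · rw [Fin.snoc_last]; rfl
    · rw [Fin.snoc_castSucc]; rfl
  map_add' u v := by
    funext i
    refine Fin.lastCases ?_ (fun j => ?_) i
    · rw [Pi.add_apply, Fin.snoc_last, Fin.snoc_last, Fin.snoc_last, add_zero]
    · rw [Pi.add_apply, Fin.snoc_castSucc, Fin.snoc_castSucc, Fin.snoc_castSucc, Pi.add_apply]

theorem snocZero_apply_last (r : ℕ) (u : Fin r → M) : snocZero r u (Fin.last r) = 0 :=
  Fin.snoc_last (α := fun _ => M) _ _

theorem snocZero_apply_castSucc (r : ℕ) (u : Fin r → M) (j : Fin r) :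
    snocZero r u j.castSucc = u j :=
  Fin.snoc_castSucc (α := fun _ => M) _ _ _

theorem snocZero_init (r : ℕ) (y : Fin (r + 1) → M) (hy : y (Fin.last r) = 0) :
    snocZero r (fun j => y j.castSucc) = y := by
  funext i
  refine Fin.lastCases ?_ (fun j => ?_) i
  · rw [snocZero_apply_last, hy]
  · rw [snocZero_apply_castSucc]

/-- **(CE) for powers.**  If `W ≤ M` is `I`-stable with (CE), then `W ^ r ≤ M ^ r` has (CE). -/
theorem ce_pow {I : Set G} {act : G → M → M}
    (hadd : ∀ σ x y, act σ (x + y) = act σ x + act σ y) {W : AddSubgroup M}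
    (hWI : ∀ σ ∈ I, ∀ w ∈ W, act σ w ∈ W)
    (hce : ∀ N : AddSubgroup M, (∀ σ ∈ I, ∀ u ∈ N, act σ u ∈ N) →
      ∀ w ∈ W, (∀ σ ∈ I, act σ w - w ∈ N) → w ∈ N) :
    ∀ (r : ℕ) (N : AddSubgroup (Fin r → M)),
      (∀ σ ∈ I, ∀ u ∈ N, (fun i => act σ (u i)) ∈ N) →
      ∀ z : Fin r → M, (∀ i, z i ∈ W) → (∀ σ ∈ I, (fun i => act σ (z i)) - z ∈ N) → z ∈ N := by
  intro r
  induction r with
  | zero =>
    intro N _ z _ _
    have : z = 0 := Subsingleton.elim _ _
    rw [this]
    exact N.zero_mem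
  | succ r ih =>
    intro N hN z hz hzN
    -- `N₁ = N ∩ W ^ (r+1)`
    let Wr : AddSubgroup (Fin (r + 1) → M) := AddSubgroup.pi Set.univ fun _ => W
    have hWr : ∀ x : Fin (r + 1) → M, x ∈ Wr ↔ ∀ i, x i ∈ W := fun x => by
      show x ∈ AddSubgroup.pi Set.univ (fun _ => W) ↔ _
      rw [AddSubgroup.mem_pi]
      exact ⟨fun h i => h i (Set.mem_univ i), fun h i _ => h i⟩
    let N₁ : AddSubgroup (Fin (r + 1) → M) := N ⊓ Wr
    have hN₁ : ∀ σ ∈ I, ∀ u ∈ N₁, (fun i => act σ (u i)) ∈ N₁ := by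
      intro σ hσ u hu
      exact ⟨hN σ hσ u hu.1, (hWr _).2 fun i => hWI σ hσ _ ((hWr u).1 hu.2 i)⟩
    have hzN₁ : ∀ σ ∈ I, (fun i => act σ (z i)) - z ∈ N₁ := by
      intro σ hσ
      refine ⟨hzN σ hσ, (hWr _).2 fun i => ?_⟩
      exact W.sub_mem (hWI σ hσ _ (hz i)) (hz i)
    -- the projection of `N₁` to the last coordinate
    let ev : (Fin (r + 1) → M) →+ M := Pi.evalAddMonoidHom (fun _ => M) (Fin.last r)
    let N'' : AddSubgroup M := N₁.map ev
    have hN'' : ∀ σ ∈ I, ∀ u ∈ N'', act σ u ∈ N'' := by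
      rintro σ hσ u ⟨x, hx, rfl⟩
      exact ⟨_, hN₁ σ hσ x hx, rfl⟩
    have hlast : z (Fin.last r) ∈ N'' := by
      refine hce N'' hN'' _ (hz _) fun σ hσ => ?_
      exact ⟨_, hzN₁ σ hσ, rfl⟩
    obtain ⟨x, hx, hxz⟩ := hlast
    have hxz' : x (Fin.last r) = z (Fin.last r) := hxz
    -- `y = z - x` has last coordinate zero
    set y : Fin (r + 1) → M := z - x with hy
    have hylast : y (Fin.last r) = 0 := by
      rw [hy, Pi.sub_apply, hxz', sub_self]
    have hyW : ∀ i, y i ∈ W := fun i => W.sub_mem (hz i) ((hWr x).1 hx.2 i)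
    have hyN : ∀ σ ∈ I, (fun i => act σ (y i)) - y ∈ N := by
      intro σ hσ
      have h1 : (fun i => act σ (y i)) - y =
          ((fun i => act σ (z i)) - z) - ((fun i => act σ (x i)) - x) := by
        funext i
        simp only [hy, Pi.sub_apply, act_sub hadd]
        abel
      rw [h1]
      exact N.sub_mem (hzN σ hσ) (N.sub_mem (hN σ hσ x hx.1) hx.1)
    -- pull back along `snocZero`
    let N' : AddSubgroup (Fin r → M) := N.comap (snocZero r)
    have hsn : ∀ (σ : G) (u : Fin r → M),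
        snocZero r (fun j => act σ (u j)) = fun i => act σ (snocZero r u i) := by
      intro σ u
      funext i
      refine Fin.lastCases ?_ (fun j => ?_) i
      · rw [snocZero_apply_last, snocZero_apply_last, act_zero hadd]
      · rw [snocZero_apply_castSucc, snocZero_apply_castSucc]
    have hN' : ∀ σ ∈ I, ∀ u ∈ N', (fun j => act σ (u j)) ∈ N' := by
      intro σ hσ u hu
      show snocZero r (fun j => act σ (u j)) ∈ N
      rw [hsn]
      exact hN σ hσ _ hu
    set y' : Fin r → M := fun j => y j.castSucc with hy'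
    have hyy' : snocZero r y' = y := snocZero_init r y hylast
    have hy'N' : ∀ σ ∈ I, (fun j => act σ (y' j)) - y' ∈ N' := by
      intro σ hσ
      show snocZero r ((fun j => act σ (y' j)) - y') ∈ N
      rw [map_sub, hsn, hyy']
      exact hyN σ hσ
    have hy'mem : y' ∈ N' := ih N' hN' y' (fun j => hyW _) hy'N'
    have hymem : y ∈ N := by
      have : snocZero r y' ∈ N := hy'mem
      rwa [hyy'] at this
    have : z = y + x := by rw [hy, sub_add_cancel]
    rw [this]
    exact N.add_mem hymem hx.1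


/-- **TRANSFER.**  The connected package passes to equivariant subquotients of finite powers:
if `W ≤ M` has the package and `(M', act')` is an equivariant quotient of an `act`-stable subgroup
`X₁ ≤ M ^ r`, then `W' := f (X₁ ∩ W ^ r)` has the package for `act'`. -/
theorem ConnPackage.of_isSubquotPow {I D : Set G} {act : G → M → M} {act' : G → M' → M'}
    (hadd : ∀ σ x y, act σ (x + y) = act σ x + act σ y) (hID : I ⊆ D)
    (hinv : ∀ σ ∈ D, ∃ τ ∈ D, ∀ w, act' τ (act' σ w) = w)
    {W : AddSubgroup M} (h : ConnPackage I D act W) (hsub : IsSubquotPow act act') :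
    ∃ W' : AddSubgroup M', ConnPackage I D act' W' := by
  obtain ⟨r, X₁, f, hf, hst, heq⟩ := hsub
  let Wr : AddSubgroup (Fin r → M) := AddSubgroup.pi Set.univ fun _ => W
  have hWr : ∀ x : Fin r → M, x ∈ Wr ↔ ∀ i, x i ∈ W := fun x => by
    show x ∈ AddSubgroup.pi Set.univ (fun _ => W) ↔ _
    rw [AddSubgroup.mem_pi]
    exact ⟨fun h i => h i (Set.mem_univ i), fun h i _ => h i⟩
  let Z : AddSubgroup X₁ := Wr.comap X₁.subtype
  have hZ : ∀ z : X₁, z ∈ Z ↔ ∀ i, z.1 i ∈ W := fun z => hWr z.1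
  have hWI : ∀ σ ∈ I, ∀ w ∈ W, act σ w ∈ W := fun σ hσ w hw => (h.stab σ (hID hσ) w).2 hw
  -- half of `stab`
  have hfwd : ∀ σ ∈ D, ∀ w ∈ Z.map f, act' σ w ∈ Z.map f := by
    rintro σ hσ w ⟨z, hz, rfl⟩
    refine ⟨⟨fun i => act σ (z.1 i), hst σ z.1 z.2⟩, ?_, heq σ z⟩
    exact (hZ _).2 fun i => (h.stab σ hσ _).2 ((hZ z).1 hz i)
  refine ⟨Z.map f, ⟨fun σ hσ w => ⟨fun hw => ?_, hfwd σ hσ w⟩, ?_, ?_⟩⟩
  · obtain ⟨τ, hτ, hτσ⟩ := hinv σ hσ
    have := hfwd τ hτ _ hw
    rwa [hτσ] at this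
  · intro σ hσ u
    obtain ⟨x, rfl⟩ := hf u
    refine ⟨⟨fun i => act σ (x.1 i), hst σ x.1 x.2⟩ - x, ?_, ?_⟩
    · exact (hZ _).2 fun i => h.incr σ hσ (x.1 i)
    · rw [map_sub, heq]
  · intro N' hN' w hw hwN'
    obtain ⟨z, hz, rfl⟩ := hw
    let N : AddSubgroup (Fin r → M) := (N'.comap f).map X₁.subtype
    have hNmem : ∀ x : X₁, x.1 ∈ N ↔ f x ∈ N' := by
      intro x
      constructor
      · rintro ⟨x', hx', hxx'⟩
        have : x' = x := Subtype.ext hxx'
        rw [← this]
        exact hx'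
      · intro hx
        exact ⟨x, hx, rfl⟩
    have hN : ∀ σ ∈ I, ∀ u ∈ N, (fun i => act σ (u i)) ∈ N := by
      rintro σ hσ u ⟨x, hx, rfl⟩
      have h1 : f ⟨fun i => act σ (x.1 i), hst σ x.1 x.2⟩ ∈ N' := by
        rw [heq]
        exact hN' σ hσ _ hx
      exact (hNmem ⟨fun i => act σ (x.1 i), hst σ x.1 x.2⟩).2 h1
    have hzN : ∀ σ ∈ I, (fun i => act σ (z.1 i)) - z.1 ∈ N := by
      intro σ hσ
      have h1 : f (⟨fun i => act σ (z.1 i), hst σ z.1 z.2⟩ - z) ∈ N' := by
        rw [map_sub, heq]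
        exact hwN' σ hσ
      exact (hNmem (⟨fun i => act σ (z.1 i), hst σ z.1 z.2⟩ - z)).2 h1
    have := ce_pow hadd hWI h.ce r N hN z.1 ((hZ z).1 hz) hzN
    exact (hNmem z).1 this

end Fermat.Agent.GS.Alg.Transfer
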