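/-
CELL-S / [ALG] TOP IN HYPOTHESIS FORM (helper79): **the frozen conclusion of S33 from the geometry
of `J₀(N)[pⁿ]` at `p`**.

For a Hecke–Galois datum `H` of level `N` (any `N`, `p ∈ S` odd), residually ordinary at `p`:

* [SUBQ] every level `V/𝔪ⁿV` is a `G_ℚ`-equivariant subquotient of a power of some `J₀(N)[p^k]`
  — ON MAIN (`GH/S32/Top.isSubquotPow_levelAction`, gates plugged as in `GH/S32/Final`), valid for
  `p ∣ N` as well;
* [ALG] `GS/Old/OrdLevels.isOrdinaryAt_of_levels` (per-level connected packages ⟹ frozen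
  `IsOrdinaryAt`) + `GS/Alg/Transfer` (packages pass to subquotients of powers) — ON MAIN;

so `H.ρ.IsOrdinaryAt p` follows from the two binders

* `hdet`  ([RES]) : for every place `P ∣ p` some `σ₀ ∈ I_P` has `det ρ(σ₀) ≢ 1 (mod 𝔪_T)`;
* `hgeom` ([F] + (NU)) : for every `k` and `P ∣ p` the group `J₀(N)[p^k]` has a subgroup `M⁰`,
  stable under `D_P`, containing `(σ - 1) x` for `σ ∈ I_P`, and without `I_P`-trivial subquotient
  (`Transfer.ConnPackage`).

No reducedness of `T`, no points of `T`, no pairing, no toric part: old and new forms uniformly.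
-/
import Fermat.Agent.GS.Alg.Transfer
import Fermat.Agent.GS.Old.OrdLevels
import Fermat.Agent.GS.Old.OrdResidual
import Fermat.Agent.GH.S32.Final
import Fermat.Agent.GS.Old.OrdShapeAdic

set_option autoImplicit false

open CuspForm ModularCurve IsLocalRing

namespace Fermat.Agent.GS.Alg.S33OfGeom

open Fermat.Agent.GS.Alg.Transfer Fermat.Agent.GH.S32

local notation "Qb" => AlgebraicClosure ℚ
local notation "GQ" => (AlgebraicClosure ℚ ≃ₐ[ℚ] AlgebraicClosure ℚ)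

theorem mem_decomposition_of_mem_inertiaIn {A : ValuationSubring Qb} {i : GQ}
    (hi : i ∈ A.inertiaSubgroupIn ℚ) : i ∈ A.decompositionSubgroup ℚ := by
  unfold ValuationSubring.inertiaSubgroupIn at hi
  rw [Subgroup.mem_map] at hi
  obtain ⟨i', _, rfl⟩ := hi
  exact i'.2

/-- the level action is a group action. -/
theorem levelAction_inv_levelAction {A : Type} [CommRing A] [IsLocalRing A] (ρ : GaloisRepAdic A)
    (I : Ideal A) (σ : GQ) (w : ρ.V ⧸ (I • (⊤ : Submodule A ρ.V))) :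
    ρ.levelAction I σ⁻¹ (ρ.levelAction I σ w) = w := by
  obtain ⟨v, rfl⟩ := Submodule.mkQ_surjective _ w
  show Submodule.Quotient.mk (ρ.ρ σ⁻¹ (ρ.ρ σ v)) = Submodule.Quotient.mk v
  rw [← Module.End.mul_apply, ← map_mul, inv_mul_cancel, map_one, Module.End.one_apply]

variable {p : ℕ} {N : ℕ} [NeZero N] {S : Finset ℕ}
  {𝒪 : Type} [CommRing 𝒪] [IsDomain 𝒪] [IsDiscreteValuationRing 𝒪]
  [IsAdicComplete (IsLocalRing.maximalIdeal 𝒪) 𝒪]
  {θ : CuspForm.heckeAlgebra N 2 (↑S : Set ℕ) →+* IsLocalRing.ResidueField 𝒪}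
  {T : Type} [CommRing T] [IsLocalRing T] [IsNoetherianRing T]
  [IsAdicComplete (IsLocalRing.maximalIdeal T) T] [Algebra 𝒪 T] [IsLocalHom (algebraMap 𝒪 T)]
  [Module.Finite 𝒪 T] [Module.Free 𝒪 T]

/-- **S33 from the geometry at `p`**, hypothesis form. -/
theorem isOrdinaryAt_of_geom [Finite (IsLocalRing.ResidueField 𝒪)] [CharZero 𝒪]
    (hp : p.Prime) (hp2 : p ≠ 2) (hp𝒪 : (p : 𝒪) ∈ IsLocalRing.maximalIdeal 𝒪)
    (hpS : p ∈ S) (hNS : ∀ q : ℕ, q.Prime → q ∣ N → q ∈ S)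
    (H : CuspForm.HeckeGaloisRepDatum N (↑S : Set ℕ) 𝒪 θ T)
    (hres : (GaloisRepAdic.ofResidualGaloisRep H.ρ.residual).IsOrdinaryAt p)
    (hdet : ∀ P : ValuationSubring Qb, P.LiesOverPrime p →
      ∃ σ₀ ∈ P.inertiaSubgroupIn ℚ, LinearMap.det (H.ρ.ρ σ₀) - 1 ∉ maximalIdeal T)
    (hgeom : ∀ (k : ℕ) (P : ValuationSubring Qb), P.LiesOverPrime p →
      ∃ W : AddSubgroup ↥(Submodule.torsionBy ℤ (JZero N) ((p : ℤ) ^ k)),
        ConnPackage (↑(P.inertiaSubgroupIn ℚ) : Set GQ) (↑(P.decompositionSubgroup ℚ) : Set GQ)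
          (fun (σ : GQ) (x : ↥(Submodule.torsionBy ℤ (JZero N) ((p : ℤ) ^ k))) =>
            Fermat.Agent.GH.Top.torsAct N ((p : ℤ) ^ k) σ x) W) :
    H.ρ.IsOrdinaryAt p := by
  have : Fact p.Prime := ⟨hp⟩
  have hfinres : Finite (IsLocalRing.ResidueField T) := finite_residueField_of_moduleFinite 𝒪 T
  have hfin : ∀ n : ℕ, Finite (T ⧸ maximalIdeal T ^ n) := fun n =>
    Fermat.Agent.GS.Old.OrdShapeAdic.finite_quotient_maximalIdeal_pow_of_finite_residueField n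
  refine Fermat.Agent.GS.Old.isOrdinaryAt_of_levels H.ρ hfin fun P hP => ⟨?_, fun n => ?_⟩
  · -- the residual shape
    obtain ⟨v₀, hv₀⟩ := Fermat.Agent.GS.Old.shape_of_residual_isOrdinaryAt H.ρ hres P hP
    obtain ⟨σ₀, hσ₀, hd⟩ := hdet P hP
    refine ⟨v₀, hv₀, σ₀, hσ₀, ?_⟩
    by_contra hcon
    refine hd (Fermat.Agent.GS.Old.det_sub_one_mem_of_forall_mem H.ρ σ₀ fun v => ?_)
    by_contra hv
    exact hcon ⟨v, hv⟩
  · -- the level `𝔪ⁿ`
    have := hfin n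
    obtain ⟨k, hk⟩ := Fermat.Agent.GH.S32.Top.isSubquotPow_levelAction
      (Fermat.Agent.GJ.Tate.S30Final.k18sPow_of_aux Fermat.Agent.GJ.J1.K18sAllFinal.k18sAux)
      (Fermat.Agent.GJ.Tate.S30Top.towerGate_of_towerGateC
        (Fermat.Agent.GJ.Tate.TowerGateCInst.towerGateC p N S))
      hp hp2 hp𝒪 hpS hNS H (maximalIdeal T ^ n)
    obtain ⟨W, hW⟩ := hgeom k P hP
    obtain ⟨W', hW'⟩ := hW.of_isSubquotPow
      (fun σ x y => map_add (Fermat.Agent.GH.Top.torsAct N ((p : ℤ) ^ k) σ) x y)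
      (fun σ hσ => mem_decomposition_of_mem_inertiaIn hσ)
      (fun σ hσ => ⟨σ⁻¹, inv_mem hσ, fun w => levelAction_inv_levelAction H.ρ _ σ w⟩) hk
    exact ⟨W', hW'.stab, hW'.incr, hW'.ce⟩

end Fermat.Agent.GS.Alg.S33OfGeom
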